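/-
P-CFT, row SD-SUM (helper80): for additive functors, `Hⁿ(η)` mono passes to finite direct sums.

`theorem sumMono : Fermat.Agent.H13.Cft.SumMonoStatement`.
-/
import Fermat.Agent.H13.Cft.Shift

set_option autoImplicit false
set_option linter.unusedSectionVars false

universe u v₁ v₂ u₁ u₂

open CategoryTheory CategoryTheory.Limits

namespace Fermat.Agent.H80.CFT

section general

variable {C : Type u₁} {D : Type u₂} [Category.{v₁} C] [Category.{v₂} D]
  [Preadditive C] [Preadditive D] (G G' : C ⥤ D) (θ : G ⟶ G')

/-- Monomorphy of a component of a natural transformation is invariant under isomorphisms. -/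
theorem mono_app_of_iso {A B : C} (e : A ≅ B) (h : Mono (θ.app A)) : Mono (θ.app B) := by
  have e1 : θ.app B = G.map e.inv ≫ θ.app A ≫ G'.map e.hom := by
    rw [θ.naturality_assoc, ← G'.map_comp, e.inv_hom_id, G'.map_id, Category.comp_id]
  rw [e1]
  infer_instance

/-- The components of a natural transformation at zero objects are monomorphisms. -/
theorem mono_app_of_isZero [G.PreservesZeroMorphisms] {Z : C} (hZ : IsZero Z) :
    Mono (θ.app Z) := by
  have hGZ : IsZero (G.obj Z) := G.map_isZero hZ
  exact ⟨fun f g _ => hGZ.eq_of_tgt f g⟩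

/-- Monomorphy of the components of a natural transformation of additive functors passes to
binary biproducts. -/
theorem mono_app_biprod [HasBinaryBiproducts C] [G.Additive] {A B : C}
    (hA : Mono (θ.app A)) (hB : Mono (θ.app B)) : Mono (θ.app (A ⊞ B)) := by
  refine Preadditive.mono_of_cancel_zero _ (fun {W} f hf => ?_)
  have h1 : f ≫ G.map biprod.fst = 0 := by
    refine zero_of_comp_mono (θ.app A) ?_
    rw [Category.assoc, θ.naturality, ← Category.assoc, hf, zero_comp]
  have h2 : f ≫ G.map biprod.snd = 0 := by
    refine zero_of_comp_mono (θ.app B) ?_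
    rw [Category.assoc, θ.naturality, ← Category.assoc, hf, zero_comp]
  have h3 : f = f ≫ G.map (biprod.fst ≫ biprod.inl + biprod.snd ≫ biprod.inr) := by
    rw [biprod.total, G.map_id, Category.comp_id]
  rw [h3, G.map_add, G.map_comp, G.map_comp, Preadditive.comp_add, ← Category.assoc,
    ← Category.assoc, h1, h2, zero_comp, zero_comp, add_zero]

end general

/-- **[SUM]** For additive functors, `Hⁿ(η)` mono passes to finite direct sums. -/
theorem sumMono : Fermat.Agent.H13.Cft.SumMonoStatement.{u} := by
  intro k G _ _ F F' _ _ η n P I hI hP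
  let H := HomologicalComplex.homologyFunctor (ModuleCat.{u} k) (ComplexShape.up ℕ) n
  let θ : F ⋙ H ⟶ F' ⋙ H := Functor.whiskerRight η H
  have key : Mono (θ.app I) :=
    hI (fun X => Mono (θ.app X))
      (fun A B ⟨e⟩ hA => mono_app_of_iso (F ⋙ H) (F' ⋙ H) θ e hA)
      (fun Z hZ => mono_app_of_isZero (F ⋙ H) (F' ⋙ H) θ hZ)
      (fun A B hA hB => mono_app_biprod (F ⋙ H) (F' ⋙ H) θ hA hB)
      hP
  exact key

end Fermat.Agent.H80.CFT
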