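import Fermat.Agent.H43.Cft.PairRealInterfaces
import Fermat.Agent.H44.Hasse.SplitCase
import Fermat.Agent.H96.Cft.KummerDivisible
import Fermat.Agent.H97.Cft.UnitsH1

/-!
# P-CFT / [GA-PAIR] row 1027 PAIR-NS: `NonsplitOfMovesStatement`

If some element `d` of `D_A ∩ G_K` moves the Galois extension `M / K` of prime degree `p`, then
the prime `v` of `K` under the place `A` of `ℚ̄` does not split in `M`.

Proof: the restriction `σ` of `d` to `M` is `≠ 1` and stabilises the prime `w₀` of `M` under
`A`; as `Gal(M/K)` has prime order the stabiliser of `w₀` is everything; by transitivity of the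
Galois group on the primes over `v`, `w₀` is the only prime of `M` over `v`.
-/

set_option autoImplicit false
set_option linter.style.haveILetI false
set_option linter.unusedSectionVars false

open NumberField IsDedekindDomain
open scoped Pointwise

namespace Fermat.Agent.H80.PairNS

open Fermat.Agent.H43.Cft Fermat.Agent.H54.Cft Fermat.Agent.H78.CFT

/-- An element of `G_K` acts on `M` through its restriction. -/
theorem coe_resEF_apply' (K : IntermediateField ℚ Qbar) (M : IntermediateField K Qbar)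
    [Normal K M] (g : K.fixingSubgroup) (m : M) :
    ((resEF K M g m : M) : Qbar) = (g : GQ) (m : Qbar) := by
  have h := AlgEquiv.restrictNormal_commutes (IntermediateField.fixingSubgroupEquiv K g) M m
  exact h

/-- **[PAIR-NS]**. -/
theorem nonsplitOfMoves : NonsplitOfMovesStatement := by
  intro p _ K _ M _ _ _ hdeg q hq A hA v hv hd
  obtain ⟨d, hdA, hdK, x, hxM, hdx⟩ := hd
  haveI : NumberField ↥(M.restrictScalars ℚ) := (inferInstance : NumberField ↥M)
  -- the prime of `M` under `A`
  have hexw : ∃ w : HeightOneSpectrum (𝓞 M),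
      ∀ y : 𝓞 M, y ∈ w.asIdeal → (((y : M)) : Qbar) ∈ A.nonunits := by
    obtain ⟨w, hw, -⟩ := exists_heightOne_under (M.restrictScalars ℚ) A hq hA
    exact ⟨w, hw⟩
  obtain ⟨w0, hw0'⟩ := hexw
  have hw0 : LiesOverHeightOne (M.restrictScalars ℚ) A w0 := hw0'
  have hw0v : w0.under (𝓞 K) = v := Fermat.Agent.H44.Hasse.under_eq_of_liesOver K M hv hw0'
  have hmem : ∀ y : 𝓞 M, y ∈ w0.asIdeal ↔ (((y : M)) : Qbar) ∈ A.nonunits := by
    intro y
    refine ⟨hw0' y, fun h => ?_⟩
    by_contra hnot
    have h1 : A.valuation ((((y : 𝓞 M) : M)) : Qbar) = 1 :=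
      Fermat.Agent.H73.KD2.valuation_eq_one_of_notMem (L := M.restrictScalars ℚ) hw0 hnot
    have h2 : A.valuation ((((y : 𝓞 M) : M)) : Qbar) < 1 := (A.mem_nonunits_iff).mp h
    rw [h1] at h2
    exact lt_irrefl _ h2
  -- the decomposition group preserves the nonunits
  have hdA' : d • A = A := MulAction.mem_stabilizer_iff.mp hdA
  have hD : ∀ y : Qbar, d y ∈ A.nonunits ↔ y ∈ A.nonunits := by
    intro y
    have := Fermat.Agent.H96.Cft.apply_mem_nonunits_smul_iff d A y
    rw [hdA'] at this
    exact this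
  -- the restriction of `d`
  set σ : M ≃ₐ[K] M := resEF K M ⟨d, hdK⟩ with hσ
  have hσ1 : σ ≠ 1 := by
    intro h
    apply hdx
    have h1 := coe_resEF_apply' K M ⟨d, hdK⟩ ⟨x, hxM⟩
    rw [← hσ, h] at h1
    exact h1.symm
  -- the stabiliser of `w0`
  let H : Subgroup (M ≃ₐ[K] M) :=
    { carrier := {τ | ∀ y : 𝓞 M, τ • y ∈ w0.asIdeal ↔ y ∈ w0.asIdeal}
      one_mem' := fun y => by rw [one_smul]
      mul_mem' := fun {a b} ha hb y => by
        rw [mul_smul]
        exact (ha (b • y)).trans (hb y)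
      inv_mem' := fun {a} ha y => by
        have := ha (a⁻¹ • y)
        rw [smul_inv_smul] at this
        exact this.symm }
  have hσH : σ ∈ H := by
    intro y
    rw [hmem, hmem]
    have h1 : ((((σ • y : 𝓞 M) : M)) : Qbar) = d (((y : M)) : Qbar) :=
      coe_resEF_apply' K M ⟨d, hdK⟩ (y : M)
    rw [h1]
    exact hD _
  have hcard : Nat.card (M ≃ₐ[K] M) = p := by
    rw [IsGalois.card_aut_eq_finrank, hdeg]
  haveI : Fact (Nat.card (M ≃ₐ[K] M)).Prime := ⟨by rw [hcard]; exact Fact.out⟩
  have hHtop : H = ⊤ := by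
    rcases Subgroup.eq_bot_or_eq_top_of_prime_card H with h | h
    · exfalso
      apply hσ1
      have := hσH
      rw [h, Subgroup.mem_bot] at this
      exact this
    · exact h
  have hall : ∀ τ : M ≃ₐ[K] M, ∀ y : 𝓞 M, τ • y ∈ w0.asIdeal ↔ y ∈ w0.asIdeal := by
    intro τ
    have : τ ∈ H := by rw [hHtop]; exact Subgroup.mem_top τ
    exact this
  -- transitivity
  have key : ∀ w : HeightOneSpectrum (𝓞 M), w.under (𝓞 K) = v → w = w0 := by
    intro w hw
    obtain ⟨τ, hτ⟩ := Fermat.Agent.H97.exists_galPrime_of_under_eq (K := ↥K) (L := ↥M) w0 w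
      (hw0v.trans hw.symm)
    rw [hτ]
    apply HeightOneSpectrum.ext
    ext y
    rw [Fermat.Agent.H97.primeComap_asIdeal, Ideal.mem_comap]
    exact hall τ y
  intro w w' hw hw'
  rw [key w hw, key w' hw']

end Fermat.Agent.H80.PairNS
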