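import Mathlib

set_option autoImplicit false

open IsDedekindDomain NumberField

namespace Fermat.Agent.H80.Div

/-- [P1] principalization: a multiple of a divisor of a number field is principal. -/
def PrincipalizeStatement : Prop :=
  ∀ (K : Type) [Field K] [NumberField K] (D : HeightOneSpectrum (𝓞 K) → ℤ),
    (Function.support D).Finite →
    ∃ (n : ℕ) (β : Kˣ), 0 < n ∧
      ∀ w : HeightOneSpectrum (𝓞 K),
        Multiplicative.toAdd (w.valuationOfNeZero β) = (n : ℤ) * D w

/-- [P2] `H¹(G, ℤ[X]) = 0` explicitly, for a right action `act` and a cocycle with finitely many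
values. -/
def AbstractCobStatement : Prop :=
  ∀ (G X : Type) [Group G] (act : G → X → X),
    (∀ x, act 1 x = x) → (∀ g h x, act (g * h) x = act h (act g x)) →
    ∀ φ : G → X → ℤ, (∀ g h x, φ (g * h) x = φ g x + φ h (act g x)) →
      (Set.range φ).Finite →
      ∃ E : X → ℤ, (∀ g x, φ g x = E (act g x) - E x) ∧ ∀ x, E x ≠ 0 → ∃ g, φ g x ≠ 0

end Fermat.Agent.H80.Div
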