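import Fermat.Agent.H80.CFT.DivCob
import Fermat.Agent.H73.Cft.Principalize
import Fermat.Agent.H73.Cft.AbstractCob

/-!
# P-CFT / GO2-DIV (row 932): `DivCoboundaryStatement`

Unconditional: `divCoboundary_of` with helper73's `principalize` and `abstractCob`.
-/

set_option autoImplicit false

namespace Fermat.Agent.H80.Div

/-- **GO2-DIV**: the divisor cocycle of a `ℚ_S`-valued `S`-level cochain with `E_S`-valued
coboundary is a coboundary and a multiple of the bounding divisor is principal. -/
theorem divCoboundary : Fermat.Agent.H54.Cft.DivCoboundaryStatement :=
  divCoboundary_of Fermat.Agent.H73.NormElt.principalize Fermat.Agent.H73.NormElt.abstractCob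

end Fermat.Agent.H80.Div
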