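import Fermat.Agent.H54.Cft.N6Interfaces
import Fermat.Agent.H97.Cft.ValuationTransport
import Fermat.Agent.H73.KummerRamKD2
import Fermat.Agent.H87.Cft.ESPTorsion

/-!
# P-CFT / GO2-DIV (row 932), part 2: the Galois action on the primes of a normal number field

For a number field `F ≤ ℚ̄` normal over `ℚ`:
* `resF F g` : the restriction of `g ∈ G_ℚ` to `F`; `actP F g w` : the prime `g⁻¹ w`;
* `ordU w c` : the (multiplicative, written additively) order of `c ∈ Fˣ` at `w`;
* `ordU_actP` : `ord_{g⁻¹ w} c = ord_w (g c)`;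
* dictionary with the places of `ℚ̄` (helper73's `valuation_eq_zpow`).
-/

set_option autoImplicit false
set_option linter.style.haveILetI false
set_option linter.unusedSectionVars false

open IsDedekindDomain NumberField

namespace Fermat.Agent.H80.Div

open Fermat.Agent.H54.Cft
open Fermat.Agent.H76.Cft (QS ES IsPlaceOutside)
open Fermat.Agent.H87.Cft (unitsIncl)

section Action

variable (F : IntermediateField ℚ Qbar) [Normal ℚ F]

/-- The restriction of `g ∈ G_ℚ` to the normal field `F`. -/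
noncomputable def resF (g : GQ) : F ≃ₐ[ℚ] F := AlgEquiv.restrictNormal g F

theorem coe_resF (g : GQ) (x : F) : ((resF F g x : F) : Qbar) = g (x : Qbar) :=
  AlgEquiv.restrictNormal_commutes g F x

theorem resF_one (x : F) : resF F 1 x = x := by
  apply Subtype.ext
  rw [coe_resF]
  rfl

theorem resF_mul (g h : GQ) (x : F) : resF F (g * h) x = resF F g (resF F h x) := by
  apply Subtype.ext
  rw [coe_resF, coe_resF, coe_resF]
  rfl

variable [NumberField F]

/-- The ring automorphism of `𝓞 F` induced by `g`. -/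
noncomputable def galIntF (g : GQ) : 𝓞 F ≃+* 𝓞 F :=
  MulSemiringAction.toRingEquiv (F ≃ₐ[ℚ] F) (𝓞 F) (resF F g)

theorem algebraMap_galIntF (g : GQ) (x : 𝓞 F) :
    algebraMap (𝓞 F) F (galIntF F g x) = resF F g (algebraMap (𝓞 F) F x) := rfl

/-- The prime `g⁻¹ w` of `F`. -/
noncomputable def actP (g : GQ) (w : HeightOneSpectrum (𝓞 F)) : HeightOneSpectrum (𝓞 F) :=
  Fermat.Agent.H97.primeComap (galIntF F g) w

theorem mem_actP (g : GQ) (w : HeightOneSpectrum (𝓞 F)) (x : 𝓞 F) :
    x ∈ (actP F g w).asIdeal ↔ galIntF F g x ∈ w.asIdeal := Iff.rfl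

theorem valuation_actP (g : GQ) (w : HeightOneSpectrum (𝓞 F)) (z : F) :
    (actP F g w).valuation F z = w.valuation F (resF F g z) :=
  Fermat.Agent.H97.valuation_primeComap (galIntF F g) ((resF F g : F ≃ₐ[ℚ] F) : F →+* F)
    (fun x => (algebraMap_galIntF F g x).symm) w z

theorem actP_one (w : HeightOneSpectrum (𝓞 F)) : actP F 1 w = w := by
  apply HeightOneSpectrum.ext
  ext x
  rw [mem_actP]
  have : galIntF F 1 x = x := by
    apply RingOfIntegers.ext
    show resF F 1 (algebraMap (𝓞 F) F x) = _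
    exact resF_one F _
  rw [this]

theorem actP_mul (g h : GQ) (w : HeightOneSpectrum (𝓞 F)) :
    actP F (g * h) w = actP F h (actP F g w) := by
  apply HeightOneSpectrum.ext
  ext x
  rw [mem_actP, mem_actP, mem_actP]
  have : galIntF F (g * h) x = galIntF F g (galIntF F h x) := by
    apply RingOfIntegers.ext
    show resF F (g * h) (algebraMap (𝓞 F) F x) = resF F g (resF F h (algebraMap (𝓞 F) F x))
    exact resF_mul F g h _
  rw [this]

theorem actP_mem_primesOverS_iff (S : Finset Nat.Primes) (g : GQ)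
    (w : HeightOneSpectrum (𝓞 F)) :
    actP F g w ∈ primesOverS S F ↔ w ∈ primesOverS S F := by
  have key : ∀ q : ℕ, ((q : ℕ) : 𝓞 F) ∈ (actP F g w).asIdeal ↔ ((q : ℕ) : 𝓞 F) ∈ w.asIdeal := by
    intro q
    rw [mem_actP, map_natCast]
  constructor
  · rintro ⟨q, hq, hqw⟩
    exact ⟨q, hq, (key _).mp hqw⟩
  · rintro ⟨q, hq, hqw⟩
    exact ⟨q, hq, (key _).mpr hqw⟩

end Action

section Ord

variable {F : IntermediateField ℚ Qbar} [NumberField F]

/-- The order of `c ∈ Fˣ` at `w` (the exponent of the valuation in `ℤᵐ⁰`; it is `≤ 0` on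
integers). -/
noncomputable def ordU (w : HeightOneSpectrum (𝓞 F)) (c : Fˣ) : ℤ :=
  Multiplicative.toAdd (w.valuationOfNeZero c)

theorem ordU_mul (w : HeightOneSpectrum (𝓞 F)) (c d : Fˣ) :
    ordU w (c * d) = ordU w c + ordU w d := by
  unfold ordU
  rw [map_mul, toAdd_mul]

theorem ordU_inv (w : HeightOneSpectrum (𝓞 F)) (c : Fˣ) : ordU w c⁻¹ = - ordU w c := by
  unfold ordU
  rw [map_inv, toAdd_inv]

theorem ordU_div (w : HeightOneSpectrum (𝓞 F)) (c d : Fˣ) :
    ordU w (c / d) = ordU w c - ordU w d := by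
  rw [div_eq_mul_inv, ordU_mul, ordU_inv, sub_eq_add_neg]

theorem valuation_eq_exp_ordU (w : HeightOneSpectrum (𝓞 F)) (c : Fˣ) :
    w.valuation F (c : F) = WithZero.exp (ordU w c) := by
  rw [← HeightOneSpectrum.valuationOfNeZero_eq]
  rfl

theorem ordU_eq_of_valuation_eq {w w' : HeightOneSpectrum (𝓞 F)} {c d : Fˣ}
    (h : w.valuation F (c : F) = w'.valuation F (d : F)) : ordU w c = ordU w' d := by
  rw [valuation_eq_exp_ordU, valuation_eq_exp_ordU] at h
  exact WithZero.exp_injective h

/-- The order of a nonzero element vanishes outside a finite set of primes. -/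
theorem finite_ordU_ne_zero (c : Fˣ) :
    {w : HeightOneSpectrum (𝓞 F) | ordU w c ≠ 0}.Finite := by
  have h1 := HeightOneSpectrum.Support.finite (𝓞 F) (c : F)
  have h2 := HeightOneSpectrum.Support.finite (𝓞 F) ((c⁻¹ : Fˣ) : F)
  refine (h1.union h2).subset fun w hw => ?_
  simp only [Set.mem_ofPred_eq] at hw
  rcases lt_or_gt_of_ne hw with h | h
  · right
    show 1 < w.valuation F ((c⁻¹ : Fˣ) : F)
    rw [valuation_eq_exp_ordU, ordU_inv, ← WithZero.exp_zero, WithZero.exp_lt_exp]
    omega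
  · left
    show 1 < w.valuation F (c : F)
    rw [valuation_eq_exp_ordU, ← WithZero.exp_zero, WithZero.exp_lt_exp]
    exact h

variable [Normal ℚ F]

theorem ordU_actP (g : GQ) (w : HeightOneSpectrum (𝓞 F)) (c : Fˣ) :
    ordU (actP F g w) c = ordU w (Units.map ((resF F g : F ≃ₐ[ℚ] F) : F →* F) c) := by
  apply ordU_eq_of_valuation_eq
  rw [valuation_actP]
  rfl

theorem galU_unitsIncl_normal (g : GQ) (c : Fˣ) :
    galU g (unitsIncl F c) = unitsIncl F (Units.map ((resF F g : F ≃ₐ[ℚ] F) : F →* F) c) := by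
  apply Units.ext
  show g ((c : F) : Qbar) = ((resF F g (c : F) : F) : Qbar)
  rw [coe_resF]

end Ord

section Dictionary

variable {F : IntermediateField ℚ Qbar} [NumberField F]

/-- The valuation of a uniformizer at a place of `ℚ̄` above `w` is `< 1`. -/
theorem valuation_uniformizer_lt_one {A : ValuationSubring Qbar}
    {w : HeightOneSpectrum (𝓞 F)} (hA : LiesOverHeightOne F A w) {π : 𝓞 F}
    (hπ : w.intValuation π = WithZero.exp (-1 : ℤ)) :
    A.valuation (((π : F)) : Qbar) < 1 := by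
  have hmem : π ∈ w.asIdeal := by
    rw [← HeightOneSpectrum.intValuation_lt_one_iff_mem, hπ, ← WithZero.exp_zero,
      WithZero.exp_lt_exp]
    norm_num
  exact (A.mem_nonunits_iff).mp (hA π hmem)

theorem valuation_uniformizer_ne_zero {A : ValuationSubring Qbar}
    {w : HeightOneSpectrum (𝓞 F)} {π : 𝓞 F}
    (hπ : w.intValuation π = WithZero.exp (-1 : ℤ)) :
    A.valuation (((π : F)) : Qbar) ≠ 0 := by
  rw [Valuation.ne_zero_iff]
  intro h
  have h0 : π = 0 := by
    apply RingOfIntegers.ext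
    apply Subtype.ext
    exact h
  rw [h0, map_zero] at hπ
  exact WithZero.exp_ne_zero.symm hπ

/-- **Dictionary**: the valuation at a place `A` of `ℚ̄` above `w` of an element of `Fˣ`. -/
theorem valuation_unitsIncl {A : ValuationSubring Qbar}
    {w : HeightOneSpectrum (𝓞 F)} (hA : LiesOverHeightOne F A w) {π : 𝓞 F}
    (hπ : w.intValuation π = WithZero.exp (-1 : ℤ)) (c : Fˣ) :
    A.valuation ((unitsIncl F c : Qbarˣ) : Qbar) =
      A.valuation (((π : F)) : Qbar) ^ (- ordU w c) :=
  Fermat.Agent.H73.KD2.valuation_eq_zpow hA hπ c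

/-- A unit of `A` in `Fˣ` has order `0` at the prime under `A`. -/
theorem ordU_eq_zero_of_valuation_eq_one {A : ValuationSubring Qbar}
    {w : HeightOneSpectrum (𝓞 F)} (hA : LiesOverHeightOne F A w) (c : Fˣ)
    (hc : A.valuation ((unitsIncl F c : Qbarˣ) : Qbar) = 1) : ordU w c = 0 := by
  obtain ⟨π, hπ⟩ := w.intValuation_exists_uniformizer
  have h1 := valuation_unitsIncl hA hπ c
  rw [hc] at h1
  have hlt := valuation_uniformizer_lt_one hA hπ
  have hne : A.valuation (((π : F)) : Qbar) ≠ 0 := valuation_uniformizer_ne_zero hπ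
  by_contra h0
  have hpos : 0 < A.valuation (((π : F)) : Qbar) := zero_lt_iff.mpr hne
  rcases lt_or_gt_of_ne h0 with h | h
  · -- `- ordU > 0`
    have h2 : A.valuation (((π : F)) : Qbar) ^ (- ordU w c) < 1 :=
      zpow_lt_one₀ hpos hlt (by omega)
    rw [← h1] at h2
    exact lt_irrefl _ h2
  · have h2 : 1 < A.valuation (((π : F)) : Qbar) ^ (- ordU w c) :=
      one_lt_zpow_of_neg₀ hpos hlt (by omega)
    rw [← h1] at h2
    exact lt_irrefl _ h2

end Dictionary

end Fermat.Agent.H80.Div
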