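import Fermat.Agent.H54.Cft.N6Interfaces
import Fermat.Agent.H96.Cft.KummerDivisible

/-!
# P-CFT / GO2-DIV (row 932), part 1: the field of values

For an `S`-level cochain `b : G_L → ℚ̄ˣ` with values in `ℚ_S`:
* `finite_range_of_isSLvl` : `b` takes finitely many values;
* `exists_normal_field` : there is a finite normal extension `F/ℚ` inside `ℚ̄`, unramified
  outside `S`, containing all the values of `b`.
-/

set_option autoImplicit false
set_option linter.style.haveILetI false

open IsDedekindDomain NumberField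

namespace Fermat.Agent.H80.Div

open Fermat.Agent.H54.Cft
open Fermat.Agent.H76.Cft (QS ES IsPlaceOutside)

/-- `ℚ̄ / ℚ` is normal (for the algebra instance found by instance search). -/
theorem normal_Qbar_div : Normal ℚ Qbar := by
  have h : (DivisionRing.toRatAlgebra : Algebra ℚ (AlgebraicClosure ℚ)) =
      AlgebraicClosure.instAlgebra ℚ := Subsingleton.elim _ _
  rw [h]
  infer_instance

/-- A finite-dimensional subfield of `ℚ_S` is unramified outside `S`. -/
theorem isUnramifiedOutside_of_le_QS {S : Finset Nat.Primes} {F : IntermediateField ℚ Qbar}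
    (hfd : FiniteDimensional ℚ F) (hle : F ≤ QS S) : F.IsUnramifiedOutside S := by
  refine ⟨hfd, fun q hq A hA σ hσ => ?_⟩
  rw [IntermediateField.mem_fixingSubgroup_iff]
  intro x hx
  exact Fermat.Agent.H96.Cft.apply_eq_of_mem_QS hq hA hσ (hle hx)

/-- A level function on `G_L` takes finitely many values. -/
theorem finite_range_of_isSLvl {S : Finset Nat.Primes} {L : IntermediateField ℚ Qbar}
    {X : Type} {b : GalL L → X} (hb : IsSLvl₁ S L b) : (Set.range b).Finite := by
  classical
  obtain ⟨F0, hF0, hinv⟩ := hb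
  haveI : FiniteDimensional ℚ F0 := hF0.1
  let r : GalL L → (F0 →ₐ[ℚ] Qbar) := fun g => ((g : GQ) : Qbar →ₐ[ℚ] Qbar).comp F0.val
  have hr : ∀ g g' : GalL L, r g = r g' → b g = b g' := by
    intro g g' h
    have hmem : ((g⁻¹ * g' : GalL L) : GQ) ∈ F0.fixingSubgroup := by
      rw [IntermediateField.mem_fixingSubgroup_iff]
      intro x hx
      have h1 : (g : GQ) x = (g' : GQ) x := by
        have := congrArg (fun ρ : F0 →ₐ[ℚ] Qbar => ρ ⟨x, hx⟩) h
        exact this
      show ((g : GQ)⁻¹ * (g' : GQ)) x = x
      rw [AlgEquiv.mul_apply, ← h1]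
      exact (g : GQ).symm_apply_apply x
    have := hinv g (g⁻¹ * g') hmem
    rw [mul_inv_cancel_left] at this
    exact this.symm
  by_cases hne : Nonempty X
  · obtain ⟨x0⟩ := hne
    let f : (F0 →ₐ[ℚ] Qbar) → X := fun ρ =>
      if h : ∃ g, r g = ρ then b h.choose else x0
    have hf : ∀ g, b g = f (r g) := by
      intro g
      have h : ∃ g', r g' = r g := ⟨g, rfl⟩
      show b g = if h : ∃ g', r g' = r g then b h.choose else x0
      rw [dif_pos h]
      exact (hr _ _ h.choose_spec).symm
    haveI : Finite (F0 →ₐ[ℚ] Qbar) := inferInstance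
    refine (Set.finite_range f).subset ?_
    rintro _ ⟨g, rfl⟩
    exact ⟨r g, (hf g).symm⟩
  · haveI : IsEmpty X := not_nonempty_iff.mp hne
    exact Set.toFinite _

/-- The field of values: a finite normal extension of `ℚ` unramified outside `S` containing all
the values of `b`. -/
theorem exists_normal_field {S : Finset Nat.Primes} {L : IntermediateField ℚ Qbar}
    {b : GalL L → Qbarˣ} (hb : IsSLvl₁ S L b) (hQS : ∀ g, ((b g : Qbarˣ) : Qbar) ∈ QS S) :
    ∃ F : IntermediateField ℚ Qbar, F.IsUnramifiedOutside S ∧ Normal ℚ F ∧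
      ∀ g, ((b g : Qbarˣ) : Qbar) ∈ F := by
  classical
  haveI := normal_Qbar_div
  have hfin : (Set.range fun g => ((b g : Qbarˣ) : Qbar)).Finite := by
    have := (finite_range_of_isSLvl hb).image (fun u : Qbarˣ => (u : Qbar))
    refine this.subset ?_
    rintro _ ⟨g, rfl⟩
    exact ⟨b g, ⟨g, rfl⟩, rfl⟩
  set T : Set Qbar := Set.range fun g => ((b g : Qbarˣ) : Qbar) with hT
  haveI : Finite T := hfin.to_subtype
  have hF1fd : FiniteDimensional ℚ (IntermediateField.adjoin ℚ T) :=
    IntermediateField.finiteDimensional_adjoin fun x _ =>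
      (Algebra.IsIntegral.isIntegral (R := ℚ) x)
  have hF1le : IntermediateField.adjoin ℚ T ≤ QS S := by
    rw [IntermediateField.adjoin_le_iff]
    rintro _ ⟨g, rfl⟩
    exact hQS g
  let F : IntermediateField ℚ Qbar :=
    IntermediateField.normalClosure ℚ (IntermediateField.adjoin ℚ T) Qbar
  have hFfd : FiniteDimensional ℚ F := by
    haveI := hF1fd
    exact normalClosure.is_finiteDimensional ℚ (IntermediateField.adjoin ℚ T) Qbar
  have hFle : F ≤ QS S := by
    show IntermediateField.normalClosure ℚ (IntermediateField.adjoin ℚ T) Qbar ≤ QS S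
    refine (IntermediateField.normalClosure_def'' (IntermediateField.adjoin ℚ T)).le.trans ?_
    refine iSup_le fun g => ?_
    intro x hx
    obtain ⟨y, hy, rfl⟩ := (IntermediateField.mem_map _).mp hx
    exact Fermat.Agent.H96.Cft.apply_mem_QS S g (hF1le hy)
  refine ⟨F, isUnramifiedOutside_of_le_QS hFfd hFle, ?_, fun g => ?_⟩
  · exact normalClosure.normal ℚ (IntermediateField.adjoin ℚ T) Qbar
  · have h1 : IntermediateField.adjoin ℚ T ≤ F :=
      IntermediateField.le_normalClosure _
    exact h1 (IntermediateField.subset_adjoin ℚ T ⟨g, rfl⟩)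

end Fermat.Agent.H80.Div
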