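import Fermat.Agent.H54.Cft.GO2Interfaces
import Fermat.Agent.H80.CFT.DivInterfaces
import Fermat.Agent.H80.CFT.DivField
import Fermat.Agent.H80.CFT.DivAction

/-!
# P-CFT / GO2-DIV (row 932), part 3: assembly

`divCoboundary_of : PrincipalizeStatement → AbstractCobStatement → DivCoboundaryStatement`.

`F` is a finite normal extension of `ℚ` inside `ℚ_S` containing the values of `b`; the divisor
cocycle `φ g w = ord_w (b g)` (`0` at the primes over `S`) on the primes of `F` is a coboundary
`φ g w = E (g⁻¹ w) - E w` and `n E = div β₀` is principal.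
-/

set_option autoImplicit false
set_option linter.style.haveILetI false
set_option linter.unusedSectionVars false

open IsDedekindDomain NumberField

namespace Fermat.Agent.H80.Div

open Fermat.Agent.H54.Cft
open Fermat.Agent.H76.Cft (QS ES IsPlaceOutside)
open Fermat.Agent.H87.Cft (unitsIncl exists_place_outside exists_heightOne_outside)

/-- A unit of a valuation subring has valuation `1`. -/
theorem valuation_eq_one_of_mem_of_inv_mem (A : ValuationSubring Qbar) (u : Qbarˣ)
    (h1 : (u : Qbar) ∈ A) (h2 : ((u⁻¹ : Qbarˣ) : Qbar) ∈ A) : A.valuation (u : Qbar) = 1 := by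
  have e1 : A.valuation (u : Qbar) ≤ 1 := (A.valuation_le_one_iff _).mpr h1
  have e2 : A.valuation ((u⁻¹ : Qbarˣ) : Qbar) ≤ 1 := (A.valuation_le_one_iff _).mpr h2
  rw [Units.val_inv_eq_inv_val, map_inv₀] at e2
  have hpos : 0 < A.valuation (u : Qbar) :=
    zero_lt_iff.mpr ((Valuation.ne_zero_iff _).mpr u.ne_zero)
  exact le_antisymm e1 ((inv_le_one₀ hpos).mp e2)

/-- A field unramified outside `S` lies in `ℚ_S`. -/
theorem le_QS_of_isUnramifiedOutside {S : Finset Nat.Primes} {F : IntermediateField ℚ Qbar}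
    (hF : F.IsUnramifiedOutside S) : F ≤ QS S :=
  le_iSup (fun F : {F : IntermediateField ℚ Qbar // F.IsUnramifiedOutside S} => F.1) ⟨F, hF⟩

/-- **GO2-DIV** from principalization and the vanishing of `H¹` of a permutation module. -/
theorem divCoboundary_of (hP1 : PrincipalizeStatement) (hP2 : AbstractCobStatement) :
    DivCoboundaryStatement := by
  intro S L _ hL b hlvl hQS hcob
  classical
  obtain ⟨F, hF, hFn, hbF⟩ := exists_normal_field hlvl hQS
  haveI := hFn
  haveI : FiniteDimensional ℚ F := hF.1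
  haveI : NumberField F := ⟨⟩
  have hFle : F ≤ QS S := le_QS_of_isUnramifiedOutside hF
  -- the values of `b` as units of `F`
  have hne : ∀ g, (⟨((b g : Qbarˣ) : Qbar), hbF g⟩ : F) ≠ 0 := by
    intro g h
    have := congrArg (fun y : F => (y : Qbar)) h
    exact (b g).ne_zero this
  let bF : GalL L → Fˣ := fun g => Units.mk0 ⟨((b g : Qbarˣ) : Qbar), hbF g⟩ (hne g)
  have hbFb : ∀ g, unitsIncl F (bF g) = b g := fun g => Units.ext rfl
  -- the action and the divisor cocycle
  let act : GalL L → HeightOneSpectrum (𝓞 F) → HeightOneSpectrum (𝓞 F) :=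
    fun g w => actP F (g : GQ) w
  let φ : GalL L → HeightOneSpectrum (𝓞 F) → ℤ :=
    fun g w => if w ∈ primesOverS S F then 0 else ordU w (bF g)
  have hφ_pos : ∀ g w, w ∈ primesOverS S F → φ g w = 0 := fun g w hw => if_pos hw
  have hφ_neg : ∀ g w, w ∉ primesOverS S F → φ g w = ordU w (bF g) := fun g w hw => if_neg hw
  have hcoc : ∀ g h x, φ (g * h) x = φ g x + φ h (act g x) := by
    intro g h x
    by_cases hx : x ∈ primesOverS S F
    · have hx' : act g x ∈ primesOverS S F := (actP_mem_primesOverS_iff F S g x).mpr hx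
      rw [hφ_pos _ _ hx, hφ_pos _ _ hx, hφ_pos _ _ hx', add_zero]
    · have hx' : act g x ∉ primesOverS S F :=
        fun h' => hx ((actP_mem_primesOverS_iff F S g x).mp h')
      rw [hφ_neg _ _ hx, hφ_neg _ _ hx, hφ_neg _ _ hx']
      obtain ⟨q, A, hq, hqA, hAx⟩ := exists_place_outside F x hx
      have hA : IsPlaceOutside S A := ⟨q, hq, hqA⟩
      obtain ⟨-, hu2⟩ := hcob g h
      obtain ⟨hu3, hu4⟩ := hu2 A hA
      have huF : unitsIncl F
          (Units.map ((resF F (g : GQ) : F ≃ₐ[ℚ] F) : F →* F) (bF h) * bF g / bF (g * h)) =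
          galU (g : GQ) (b h) * b g / b (g * h) := by
        rw [map_div, map_mul, ← galU_unitsIncl_normal, hbFb, hbFb, hbFb]
      have hval := valuation_eq_one_of_mem_of_inv_mem A _ hu3 hu4
      rw [← huF] at hval
      have h0 := ordU_eq_zero_of_valuation_eq_one hAx _ hval
      rw [ordU_div, ordU_mul, ← ordU_actP] at h0
      show ordU x (bF (g * h)) = ordU x (bF g) + ordU (actP F (g : GQ) x) (bF h)
      omega
  have hφlvl : IsSLvl₁ S L φ := by
    obtain ⟨F0, hF0, hinv⟩ := hlvl
    refine ⟨F0, hF0, fun g n hn => ?_⟩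
    have hb : bF (g * n) = bF g := by
      apply Units.ext
      apply Subtype.ext
      show ((b (g * n) : Qbarˣ) : Qbar) = ((b g : Qbarˣ) : Qbar)
      rw [hinv g n hn]
    funext w
    show (if w ∈ primesOverS S F then 0 else ordU w (bF (g * n))) =
      if w ∈ primesOverS S F then 0 else ordU w (bF g)
    rw [hb]
  have hφfin : (Set.range φ).Finite := finite_range_of_isSLvl hφlvl
  obtain ⟨E, hE, hEsupp⟩ := hP2 (GalL L) (HeightOneSpectrum (𝓞 F)) act
    (fun x => actP_one F x) (fun g h x => actP_mul F (g : GQ) (h : GQ) x) φ hcoc hφfin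
  have hEfin : (Function.support E).Finite := by
    have hU : (⋃ f ∈ Set.range φ, Function.support f).Finite := by
      refine hφfin.biUnion ?_
      rintro _ ⟨g, rfl⟩
      refine (finite_ordU_ne_zero (bF g)).subset fun w hw => ?_
      by_cases hwS : w ∈ primesOverS S F
      · exact absurd (hφ_pos g w hwS) hw
      · show ordU w (bF g) ≠ 0
        rw [← hφ_neg g w hwS]
        exact hw
    refine hU.subset fun w hw => ?_
    obtain ⟨g, hg⟩ := hEsupp w hw
    exact Set.mem_biUnion ⟨g, rfl⟩ hg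
  obtain ⟨n, β0, hn, hβ0⟩ := hP1 F E hEfin
  have hβ0' : ∀ w, ordU w β0 = (n : ℤ) * E w := hβ0
  refine ⟨n, unitsIncl F β0, hn, hFle (β0 : F).2, ?_, ?_⟩
  · intro A hA g
    obtain ⟨w, hwS, hAw⟩ := exists_heightOne_outside F hA
    obtain ⟨π, hπ⟩ := w.intValuation_exists_uniformizer
    have h1 := valuation_unitsIncl hAw hπ (bF g)
    rw [hbFb] at h1
    have h2 : galU (g : GQ) (unitsIncl F β0) / unitsIncl F β0 =
        unitsIncl F (Units.map ((resF F (g : GQ) : F ≃ₐ[ℚ] F) : F →* F) β0 / β0) := by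
      rw [map_div, galU_unitsIncl_normal]
    have h3 := valuation_unitsIncl hAw hπ
      (Units.map ((resF F (g : GQ) : F ≃ₐ[ℚ] F) : F →* F) β0 / β0)
    rw [h2, h3, h1, ← zpow_natCast, ← zpow_mul]
    congr 1
    rw [ordU_div, ← ordU_actP, hβ0', hβ0']
    have e3 : φ g w = E (act g w) - E w := hE g w
    rw [hφ_neg g w hwS] at e3
    rw [e3]
    show -(E (actP F (g : GQ) w) - E w) * (n : ℤ) = -((n : ℤ) * E (actP F (g : GQ) w) - n * E w)
    ring
  · intro A hA
    obtain ⟨w, hwS, hAw⟩ := exists_heightOne_outside F hA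
    obtain ⟨π, hπ⟩ := w.intValuation_exists_uniformizer
    have hπ0 : ((π : 𝓞 F) : F) ≠ 0 := by
      intro h
      have h0 : π = 0 := RingOfIntegers.ext h
      rw [h0, map_zero] at hπ
      exact WithZero.exp_ne_zero.symm hπ
    let πu : Fˣ := Units.mk0 ((π : 𝓞 F) : F) hπ0
    refine ⟨unitsIncl F (πu ^ (- E w)), hFle ((πu ^ (- E w) : Fˣ) : F).2, ?_⟩
    have h4 : A.valuation ((unitsIncl F (πu ^ (- E w)) : Qbarˣ) : Qbar) =
        A.valuation ((((π : 𝓞 F) : F)) : Qbar) ^ (- E w) := by
      rw [map_zpow, Units.val_zpow_eq_zpow_val, map_zpow₀]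
      rfl
    rw [valuation_unitsIncl hAw hπ β0, h4, ← zpow_natCast, ← zpow_mul, hβ0']
    congr 1
    ring

end Fermat.Agent.H80.Div
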