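/-
P-CFT GLOBAL / class module, row CM-H1 (helper80): `p`-group induction in degree 1.

`theorem pGroupH1 : Fermat.Agent.H43.Cft.PGroupH1Statement` : if `H¹` of every cyclic layer
vanishes then `H¹(U, C) = 0` for every subgroup `U` of a finite `p`-group.
-/
import Fermat.Agent.H43.Cft.ClassModule

set_option autoImplicit false

namespace Fermat.Agent.H80.CFT

open CategoryTheory groupCohomology Rep

variable {k : Type} [CommRing k]

/-- `H¹` of the trivial group vanishes. -/
theorem h1_subsingleton_of_subsingleton {G : Type} [Group G] [Subsingleton G] (A : Rep k G) :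
    Subsingleton (groupCohomology.H1 A) := by
  refine ⟨fun x y => ?_⟩
  have key : ∀ z : groupCohomology.H1 A, z = 0 := by
    intro z
    induction z using H1_induction_on with | @h f =>
    rw [H1π_eq_zero_iff]
    refine ⟨0, ?_⟩
    funext g
    have hg : g = 1 := Subsingleton.elim _ _
    subst hg
    simp
  rw [key x, key y]

/-- Inflation-restriction in degree 1: if `H¹(G ⧸ S, A^S)` and `H¹(S, A)` vanish, so does
`H¹(G, A)`. -/
theorem h1_subsingleton_of_infRes {G : Type} [Group G] (A : Rep k G) (S : Subgroup G)
    [S.Normal] (h1 : Subsingleton (groupCohomology.H1 (A.quotientToInvariants S)))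
    (h2 : Subsingleton (groupCohomology.H1 (res S.subtype A))) :
    Subsingleton (groupCohomology.H1 A) := by
  have hex := H1InfRes_exact A S
  rw [ShortComplex.moduleCat_exact_iff_ker_sub_range] at hex
  refine ⟨fun x y => ?_⟩
  have key : ∀ z : groupCohomology.H1 A, z = 0 := by
    intro z
    have hz : (H1InfRes A S).g.hom z = 0 :=
      Subsingleton.elim (α := groupCohomology.H1 (res S.subtype A)) _ _
    obtain ⟨w, hw⟩ := hex (LinearMap.mem_ker.2 hz)
    have hw0 : w = 0 := Subsingleton.elim (α := groupCohomology.H1 (A.quotientToInvariants S)) _ _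
    rw [hw0, map_zero] at hw
    exact hw.symm
  rw [key x, key y]

/-- The induction: `H¹(H, C) = 0` for a group of order `p ^ n` all of whose cyclic layers have
vanishing `H¹`. -/
theorem pGroupH1_top (p : ℕ) [hp : Fact p.Prime] :
    ∀ (n : ℕ) (H : Type) [Group H] [Finite H] (C : Rep.{0} ℤ H), Nat.card H = p ^ n →
      (∀ (U : Type) [Group U] (ι : U →* H), Function.Injective ι →
        ∀ (N : Subgroup U) [N.Normal], N.index = p →
          Subsingleton (groupCohomology.H1 ((Rep.res ι C).quotientToInvariants N))) →
      Subsingleton (groupCohomology.H1 C) := by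
  intro n
  induction n with
  | zero =>
    intro H _ _ C hH _
    have hsH : Subsingleton H := by
      rw [pow_zero] at hH
      exact (Nat.card_eq_one_iff_unique.1 hH).1
    exact h1_subsingleton_of_subsingleton C
  | succ n ih =>
    intro H _ _ C hH hcyc
    obtain ⟨S, hS⟩ := Sylow.exists_subgroup_card_pow_prime p (n := n) (G := H)
      (by rw [hH]; exact pow_dvd_pow p (Nat.le_succ n))
    have hidx : S.index = p := by
      have h := S.index_mul_card
      rw [hS, hH, pow_succ'] at h
      exact Nat.eq_of_mul_eq_mul_right (pow_pos hp.out.pos n) h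
    have hSn : S.Normal := Subgroup.normal_of_index_eq_minFac_card (by
      rw [hidx, hH, Nat.Prime.pow_minFac hp.out (Nat.succ_ne_zero n)])
    have hresS : Subsingleton (groupCohomology.H1 (res S.subtype C)) :=
      ih S (res S.subtype C) hS
        (fun U _ ι hι N _ hN => hcyc U (S.subtype.comp ι) (S.subtype_injective.comp hι) N hN)
    have hQ : Subsingleton (groupCohomology.H1 (C.quotientToInvariants S)) :=
      hcyc H (MonoidHom.id H) Function.injective_id S hidx
    exact h1_subsingleton_of_infRes C S hQ hresS

/-- **[CM-H1]** `p`-group induction in degree 1. -/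
theorem pGroupH1 : Fermat.Agent.H43.Cft.PGroupH1Statement := by
  intro p hp n H _ _ C hH hcyc U _ ι hι
  have hfin : Finite U := Finite.of_injective ι hι
  have hdvd : Nat.card U ∣ p ^ n := by
    rw [← hH]
    exact Subgroup.card_dvd_of_injective ι hι
  obtain ⟨m, -, hm⟩ := (Nat.dvd_prime_pow hp.out).1 hdvd
  exact pGroupH1_top p m U (Rep.res ι C) hm
    (fun U' _ ι' hι' N _ hN => hcyc U' (ι.comp ι') (hι.comp hι') N hN)

end Fermat.Agent.H80.CFT
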